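/-
S18lib / Cech / CurveBasics (helper6).
Elementary facts on Riemann–Roch spaces of the Prelude's `AlgebraicCurve.Place` / `Divisor`,
for a function field satisfying `IsCurveOfGenus`.
-/
import Mathlib
import Fermat.Agent.S18lib.Setup.CurveRR
import Fermat.Agent.ProgramR.FunctionField.PlaceDedekind

set_option autoImplicit false

noncomputable section

namespace Fermat.Agent.S18lib.Cech

open AlgebraicCurve Fermat.Agent.ProgramR

variable {K F : Type*} [Field K] [Field F] [Algebra K F]

/-! ### orders -/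

theorem ord_const (v : Place K F) (c : K) : v.ord (algebraMap K F c) = 0 := by
  rcases eq_or_ne c 0 with rfl | hc
  · simp
  have h1 := FF.ord_nonneg_of_mem v (v.algebraMap_mem' c)
  have h2 := FF.ord_nonneg_of_mem v (v.algebraMap_mem' c⁻¹)
  rw [map_inv₀, v.ord_inv] at h2
  omega

theorem ord_pow (v : Place K F) (f : F) (n : ℕ) : v.ord (f ^ n) = n * v.ord f := by
  have := v.ord_zpow f n
  rwa [zpow_natCast] at this

theorem ord_neg (v : Place K F) (f : F) : v.ord (-f) = v.ord f := by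
  simp only [Place.ord, Valuation.map_neg]

/-- ultrametric inequality in the form we use -/
theorem ord_add_ge (v : Place K F) {f g : F} {n : ℤ} (hf : f = 0 ∨ n ≤ v.ord f)
    (hg : g = 0 ∨ n ≤ v.ord g) : f + g = 0 ∨ n ≤ v.ord (f + g) := by
  have key : ∀ h : F, (h = 0 ∨ n ≤ v.ord h) ↔ v.adicValuation h ≤ WithZero.exp (-n) := by
    intro h
    rw [v.adicValuation_le_exp_iff, neg_neg]
  rw [key] at hf hg ⊢
  exact (Valuation.map_add _ _ _).trans (max_le hf hg)

/-! ### Riemann–Roch spaces -/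

theorem mem_rr_iff {D : Divisor K F} {f : F} :
    f ∈ riemannRochSpace D ↔ ∀ v : Place K F, f = 0 ∨ -D v ≤ v.ord f :=
  mem_riemannRochSpace_iff

theorem mem_rr_of_ne {D : Divisor K F} {f : F} (hf : f ≠ 0) :
    f ∈ riemannRochSpace D ↔ ∀ v : Place K F, -D v ≤ v.ord f := by
  rw [mem_rr_iff]
  exact forall_congr' fun v => or_iff_right hf

theorem rr_mono {D D' : Divisor K F} (h : ∀ v, D v ≤ D' v) :
    riemannRochSpace D ≤ riemannRochSpace D' := by
  intro f hf
  rw [mem_rr_iff] at hf ⊢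
  intro v
  rcases hf v with h0 | h1
  · exact Or.inl h0
  · exact Or.inr (by have := h v; omega)

theorem mul_mem_rr {D₁ D₂ : Divisor K F} {f g : F} (hf : f ∈ riemannRochSpace D₁)
    (hg : g ∈ riemannRochSpace D₂) : f * g ∈ riemannRochSpace (D₁ + D₂) := by
  rcases eq_or_ne f 0 with rfl | hf0
  · rw [zero_mul]; exact Submodule.zero_mem _
  rcases eq_or_ne g 0 with rfl | hg0
  · rw [mul_zero]; exact Submodule.zero_mem _
  rw [mem_rr_of_ne hf0] at hf
  rw [mem_rr_of_ne hg0] at hg
  rw [mem_rr_of_ne (mul_ne_zero hf0 hg0)]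
  intro v
  rw [v.ord_mul hf0 hg0, Finsupp.add_apply]
  have := hf v
  have := hg v
  omega

theorem pow_mem_rr {D : Divisor K F} {f : F} (hf : f ∈ riemannRochSpace D) (n : ℕ) :
    f ^ n ∈ riemannRochSpace (n • D) := by
  induction n with
  | zero =>
    rw [pow_zero, zero_smul, mem_rr_of_ne one_ne_zero]
    intro v
    simp
  | succ n ih =>
    rw [pow_succ, succ_nsmul]
    exact mul_mem_rr ih hf

theorem const_mem_rr {D : Divisor K F} (hD : ∀ v, 0 ≤ D v) (c : K) :
    algebraMap K F c ∈ riemannRochSpace D := by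
  rw [mem_rr_iff]
  intro v
  right
  rw [ord_const]
  have := hD v
  omega

theorem one_mem_rr {D : Divisor K F} (hD : ∀ v, 0 ≤ D v) : (1 : F) ∈ riemannRochSpace D := by
  have := const_mem_rr (F := F) hD (1 : K)
  rwa [map_one] at this

/-- a function with divisor `D` lies in `L(-D)` and its inverse in `L(D)` -/
theorem mem_rr_neg_of_div {D : Divisor K F} {f : F} (hf : f ≠ 0) (hD : ∀ v, D v = v.ord f) :
    f ∈ riemannRochSpace (-D) := by
  rw [mem_rr_of_ne hf]
  intro v
  rw [Finsupp.neg_apply, hD v]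
  omega

theorem inv_mem_rr_of_div {D : Divisor K F} {f : F} (hf : f ≠ 0) (hD : ∀ v, D v = v.ord f) :
    f⁻¹ ∈ riemannRochSpace D := by
  rw [mem_rr_of_ne (inv_ne_zero hf)]
  intro v
  rw [v.ord_inv, hD v]

/-- membership in two Riemann–Roch spaces gives membership for the pointwise minimum -/
theorem mem_rr_of_mem_of_mem {D₁ D₂ D : Divisor K F} {f : F} (h₁ : f ∈ riemannRochSpace D₁)
    (h₂ : f ∈ riemannRochSpace D₂) (h : ∀ v, D₁ v ≤ D v ∨ D₂ v ≤ D v) :
    f ∈ riemannRochSpace D := by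
  rw [mem_rr_iff] at h₁ h₂ ⊢
  intro v
  rcases h₁ v with h0 | h1
  · exact Or.inl h0
  rcases h₂ v with h0 | h2
  · exact Or.inl h0
  right
  rcases h v with h' | h' <;> omega

/-! ### degree -/

theorem degree_eq_sum' (D : Divisor K F) :
    Divisor.degree D = ∑ v ∈ D.support, D v * (v.deg : ℤ) := by
  rw [Divisor.degree, Finsupp.liftAddHom_apply, Finsupp.sum]
  rfl

theorem degree_nonneg_of_nonneg {D : Divisor K F} (hD : ∀ v, 0 ≤ D v) : 0 ≤ Divisor.degree D := by
  rw [degree_eq_sum']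
  exact Finset.sum_nonneg fun v _ => mul_nonneg (hD v) (Int.natCast_nonneg _)

/-- an effective divisor of degree `0` on a curve all of whose places have positive degree is `0` -/
theorem eq_zero_of_nonneg_of_degree_eq_zero {D : Divisor K F} (hdeg : ∀ v : Place K F, 0 < v.deg)
    (hD : ∀ v, 0 ≤ D v) (h0 : Divisor.degree D = 0) : D = 0 := by
  rw [degree_eq_sum'] at h0
  have h := (Finset.sum_eq_zero_iff_of_nonneg
    (fun v _ => mul_nonneg (hD v) (Int.natCast_nonneg _))).mp h0
  ext v
  by_contra hv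
  have hv' : v ∈ D.support := Finsupp.mem_support_iff.mpr hv
  have := h v hv'
  rcases mul_eq_zero.mp this with h1 | h1
  · exact hv h1
  · have := hdeg v
    omega

/-! ### the divisors `E + a P₁ + b P₂` -/

/-- the divisor `E + a • P₁ + b • P₂` -/
def Dv (E : Divisor K F) (P₁ P₂ : Place K F) (a b : ℤ) : Divisor K F :=
  E + Finsupp.single P₁ a + Finsupp.single P₂ b

open Classical in
theorem Dv_apply (E : Divisor K F) (P₁ P₂ : Place K F) (a b : ℤ) (v : Place K F) :
    Dv E P₁ P₂ a b v = E v + (if v = P₁ then a else 0) + (if v = P₂ then b else 0) := by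
  rw [Dv, Finsupp.add_apply, Finsupp.add_apply, Finsupp.single_apply, Finsupp.single_apply]
  simp only [eq_comm]

theorem Dv_apply_fst (E : Divisor K F) {P₁ P₂ : Place K F} (h : P₁ ≠ P₂) (a b : ℤ) :
    Dv E P₁ P₂ a b P₁ = E P₁ + a := by
  classical
  rw [Dv_apply, if_pos rfl, if_neg h, add_zero]

theorem Dv_apply_snd (E : Divisor K F) {P₁ P₂ : Place K F} (h : P₁ ≠ P₂) (a b : ℤ) :
    Dv E P₁ P₂ a b P₂ = E P₂ + b := by
  classical
  rw [Dv_apply, if_neg (Ne.symm h), if_pos rfl, add_zero]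

theorem Dv_apply_of_ne (E : Divisor K F) (P₁ P₂ : Place K F) (a b : ℤ) {v : Place K F}
    (h₁ : v ≠ P₁) (h₂ : v ≠ P₂) : Dv E P₁ P₂ a b v = E v := by
  classical
  rw [Dv_apply, if_neg h₁, if_neg h₂, add_zero, add_zero]

theorem Dv_zero_zero (E : Divisor K F) (P₁ P₂ : Place K F) : Dv E P₁ P₂ 0 0 = E := by
  rw [Dv, Finsupp.single_zero, Finsupp.single_zero, add_zero, add_zero]

theorem Dv_swap (E : Divisor K F) (P₁ P₂ : Place K F) (a b : ℤ) :
    Dv E P₁ P₂ a b = Dv E P₂ P₁ b a := by
  rw [Dv, Dv, add_right_comm]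

theorem degree_Dv (E : Divisor K F) (P₁ P₂ : Place K F) (a b : ℤ) (h₁ : P₁.deg = 1)
    (h₂ : P₂.deg = 1) : Divisor.degree (Dv E P₁ P₂ a b) = Divisor.degree E + a + b := by
  rw [Dv, map_add, map_add, Divisor.degree_single, Divisor.degree_single, h₁, h₂]
  simp

theorem mapDomain_Dv {K' F' : Type*} [Field K'] [Field F'] [Algebra K' F']
    (r : Place K F → Place K' F') (E : Divisor K F) (P₁ P₂ : Place K F) (a b : ℤ) :
    Finsupp.mapDomain r (Dv E P₁ P₂ a b) = Dv (Finsupp.mapDomain r E) (r P₁) (r P₂) a b := by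
  rw [Dv, Dv, Finsupp.mapDomain_add, Finsupp.mapDomain_add, Finsupp.mapDomain_single,
    Finsupp.mapDomain_single]

/-- pointwise comparison of two divisors of the form `Dv` -/
theorem Dv_le_Dv (E : Divisor K F) (P₁ P₂ : Place K F) {a b a' b' : ℤ}
    (ha : a ≤ a') (hb : b ≤ b') (v : Place K F) : Dv E P₁ P₂ a b v ≤ Dv E P₁ P₂ a' b' v := by
  classical
  rw [Dv_apply, Dv_apply]
  split_ifs <;> omega

/-- `L(E + a P₁ + b P₂) ∩ L(E + a' P₁ + b' P₂) ⊆ L(E + min a a' P₁ + min b b' P₂)` -/
theorem mem_rr_Dv_min (E : Divisor K F) {P₁ P₂ : Place K F} (h : P₁ ≠ P₂) {a b a' b' a'' b'' : ℤ}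
    {f : F} (h₁ : f ∈ riemannRochSpace (Dv E P₁ P₂ a b))
    (h₂ : f ∈ riemannRochSpace (Dv E P₁ P₂ a' b'))
    (ha : a ≤ a'' ∨ a' ≤ a'') (hb : b ≤ b'' ∨ b' ≤ b'') :
    f ∈ riemannRochSpace (Dv E P₁ P₂ a'' b'') := by
  refine mem_rr_of_mem_of_mem h₁ h₂ fun v => ?_
  by_cases h1 : v = P₁
  · subst h1
    rw [Dv_apply_fst E h, Dv_apply_fst E h, Dv_apply_fst E h]
    rcases ha with ha | ha
    · left; omega
    · right; omega
  · by_cases h2 : v = P₂
    · subst h2
      rw [Dv_apply_snd E h, Dv_apply_snd E h, Dv_apply_snd E h]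
      rcases hb with hb | hb
      · left; omega
      · right; omega
    · rw [Dv_apply_of_ne E _ _ _ _ h1 h2, Dv_apply_of_ne E _ _ _ _ h1 h2,
        Dv_apply_of_ne E _ _ _ _ h1 h2]
      left; exact le_refl _

/-! ### values at rational places -/

/-- at a place of degree one every regular function has a value in `K` -/
theorem exists_value_of_deg_eq_one (v : Place K F) (hv : v.deg = 1) {y : F}
    (hy : y ∈ v.toValuationSubring) :
    ∃ c : K, y = algebraMap K F c ∨ 1 ≤ v.ord (y - algebraMap K F c) := by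
  have h1 : Module.finrank K v.ResidueField = 1 := hv
  have hbt : (⊥ : Subalgebra K v.ResidueField) = ⊤ := Subalgebra.bot_eq_top_of_finrank_eq_one h1
  have hsurj : Function.Surjective (algebraMap K v.ResidueField) :=
    Algebra.surjective_algebraMap_iff.2 hbt.symm
  obtain ⟨c, hc⟩ := hsurj (IsLocalRing.residue v.toValuationSubring ⟨y, hy⟩)
  refine ⟨c, ?_⟩
  by_cases hne : y = algebraMap K F c
  · exact Or.inl hne
  right
  set z : v.toValuationSubring := ⟨y, hy⟩ - algebraMap K v.toValuationSubring c with hz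
  have hzF : (z : F) = y - algebraMap K F c := rfl
  have hz0 : (z : F) ≠ 0 := by rw [hzF]; exact sub_ne_zero.mpr hne
  have hzmem : z ∈ IsLocalRing.maximalIdeal v.toValuationSubring := by
    rw [← IsLocalRing.residue_eq_zero_iff, hz, map_sub, sub_eq_zero, ← hc]
    rfl
  obtain ⟨π, hπ⟩ := IsDiscreteValuationRing.exists_irreducible v.toValuationSubring
  obtain ⟨u, hu⟩ := v.exists_unit_mul_zpow hz0 hπ
  have hnn : 0 ≤ v.ord (z : F) := FF.ord_nonneg_of_mem v z.2
  rw [← hzF]
  by_contra hlt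
  have h0 : v.ord (z : F) = 0 := by omega
  rw [h0, zpow_zero, mul_one] at hu
  have : z = (u : v.toValuationSubring) := Subtype.ext hu
  rw [IsLocalRing.mem_maximalIdeal, mem_nonunits_iff] at hzmem
  exact hzmem (this ▸ u.isUnit)

/-! ### consequences of `IsCurveOfGenus` -/

section Curve

variable {g : ℕ} (hF : IsCurveOfGenus K F g)
include hF

theorem eq_zero_of_mem_rr_of_degree_neg {E : Divisor K F} (hE : Divisor.degree E < 0) {f : F}
    (hf : f ∈ riemannRochSpace E) : f = 0 := by
  by_contra hf0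
  obtain ⟨Df, hDf, hdeg⟩ := hF.hasPrincipalDivisors.exists_divisor f hf0
  rw [mem_rr_of_ne hf0] at hf
  have hnn : ∀ v, 0 ≤ (Df + E) v := by
    intro v
    rw [Finsupp.add_apply, hDf v]
    have := hf v
    omega
  have := degree_nonneg_of_nonneg hnn
  rw [map_add, hdeg] at this
  omega

/-- a degree zero divisor with a nonzero section is principal -/
theorem mem_principal_of_mem_rr {E : Divisor K F} (hE : Divisor.degree E = 0) {t : F}
    (ht : t ∈ riemannRochSpace E) (ht0 : t ≠ 0) : E ∈ Divisor.principal (K := K) (F := F) := by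
  obtain ⟨Dt, hDt, hdeg⟩ := hF.hasPrincipalDivisors.exists_divisor t ht0
  rw [mem_rr_of_ne ht0] at ht
  have hnn : ∀ v, 0 ≤ (Dt + E) v := by
    intro v
    rw [Finsupp.add_apply, hDt v]
    have := ht v
    omega
  have h0 : Dt + E = 0 := by
    refine eq_zero_of_nonneg_of_degree_eq_zero (fun v => ?_) hnn (by rw [map_add, hdeg, hE, add_zero])
    rw [hF.deg_eq_one v]
    exact Nat.one_pos
  refine ⟨t⁻¹, inv_ne_zero ht0, fun v => ?_⟩
  have := DFunLike.congr_fun h0 v
  rw [Finsupp.add_apply, hDt v, Finsupp.zero_apply] at this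
  rw [v.ord_inv]
  omega

/-- `L(E + P) / L(E)` is at most one dimensional -/
theorem exists_sub_smul_mem_rr (E : Divisor K F) (P : Place K F) {x y : F}
    (hx : x ∈ riemannRochSpace (E + Finsupp.single P 1))
    (hy : y ∈ riemannRochSpace (E + Finsupp.single P 1)) (hyE : y ∉ riemannRochSpace E) :
    ∃ c : K, x - c • y ∈ riemannRochSpace E := by
  classical
  have hy0 : y ≠ 0 := by
    rintro rfl
    exact hyE (Submodule.zero_mem _)
  rcases eq_or_ne x 0 with rfl | hx0
  · exact ⟨0, by rw [zero_smul, sub_zero]; exact Submodule.zero_mem _⟩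
  have hsingle : ∀ v : Place K F, v ≠ P → (E + Finsupp.single P 1 : Divisor K F) v = E v := by
    intro v hv
    rw [Finsupp.add_apply, Finsupp.single_apply, if_neg (Ne.symm hv), add_zero]
  have hsingleP : (E + Finsupp.single P 1 : Divisor K F) P = E P + 1 := by
    rw [Finsupp.add_apply, Finsupp.single_apply, if_pos rfl]
  rw [mem_rr_of_ne hy0] at hy
  -- exact pole order of `y` at `P`
  have hyP : P.ord y = -(E P + 1) := by
    have h1 := hy P
    rw [hsingleP] at h1
    by_contra hne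
    apply hyE
    rw [mem_rr_of_ne hy0]
    intro v
    by_cases hv : v = P
    · subst hv
      omega
    · have := hy v
      rwa [hsingle v hv] at this
  have hxP : -(E P + 1) ≤ P.ord x := by
    have := (mem_rr_of_ne hx0).mp hx P
    rwa [hsingleP] at this
  have hq : x / y ∈ P.toValuationSubring := by
    apply FF.mem_of_ord_nonneg
    rw [div_eq_mul_inv, P.ord_mul hx0 (inv_ne_zero hy0), P.ord_inv, hyP]
    omega
  obtain ⟨c, hc⟩ := exists_value_of_deg_eq_one P (hF.deg_eq_one P) hq
  refine ⟨c, ?_⟩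
  have hmem : x - c • y ∈ riemannRochSpace (E + Finsupp.single P 1) :=
    Submodule.sub_mem _ hx (Submodule.smul_mem _ c ((mem_rr_of_ne hy0).mpr hy))
  have hfac : x - c • y = y * (x / y - algebraMap K F c) := by
    rw [Algebra.smul_def]
    field_simp
  rcases hc with hc | hc
  · rw [hfac, hc, sub_self, mul_zero]
    exact Submodule.zero_mem _
  rw [mem_rr_iff] at hmem ⊢
  intro v
  by_cases hv : v = P
  · subst hv
    by_cases h0 : x / y - algebraMap K F c = 0
    · left
      rw [hfac, h0, mul_zero]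
    · right
      rw [hfac, v.ord_mul hy0 h0, hyP]
      omega
  · have := hmem v
    rwa [hsingle v hv] at this

end Curve

end Fermat.Agent.S18lib.Cech
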