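/-
S18lib / Cech / Ctx (helper6).
The working context of the Čech doubling argument: a reduction datum, Riemann's theorem on both
sides with the same genus, and the lattice Riemann–Roch facts (RR1)–(RR3) as hypotheses.
-/
import Fermat.Agent.S18lib.Cech.CurveBasics
import Fermat.Agent.S18lib.Setup.DatumDiv
import Fermat.Agent.S18lib.Setup.Orthonormal

set_option autoImplicit false

noncomputable section

namespace Fermat.Agent.S18lib.Cech

open AlgebraicCurve

variable {L : Type*} [Field L] {A : ValuationSubring L}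
variable {F : Type*} [Field F] [Algebra L F]
variable {Fk : Type*} [Field Fk] [Algebra (IsLocalRing.ResidueField A) Fk]

local notation "k" => IsLocalRing.ResidueField A

/-- the lattice `M(E) = L(E) ∩ O` -/
def Lat (D : RedDatum A F Fk) (E : Divisor L F) : Set F :=
  {y | y ∈ riemannRochSpace E ∧ y ∈ D.O}

section Lat

variable {D : RedDatum A F Fk} {E E' : Divisor L F} {x y : F}

theorem Lat.zero : (0 : F) ∈ Lat D E := ⟨Submodule.zero_mem _, D.O.zero_mem⟩

theorem Lat.add (hx : x ∈ Lat D E) (hy : y ∈ Lat D E) : x + y ∈ Lat D E :=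
  ⟨Submodule.add_mem _ hx.1 hy.1, D.O.add_mem _ _ hx.2 hy.2⟩

theorem Lat.neg (hx : x ∈ Lat D E) : -x ∈ Lat D E :=
  ⟨Submodule.neg_mem _ hx.1, D.O.neg_mem _ hx.2⟩

theorem Lat.sub (hx : x ∈ Lat D E) (hy : y ∈ Lat D E) : x - y ∈ Lat D E :=
  ⟨Submodule.sub_mem _ hx.1 hy.1, D.O.sub_mem hx.2 hy.2⟩

theorem Lat.smul (a : A) (hx : x ∈ Lat D E) : algebraMap L F (a : L) * x ∈ Lat D E := by
  refine ⟨?_, D.smul_mem a hx.2⟩
  have := Submodule.smul_mem (riemannRochSpace E) (a : L) hx.1
  rwa [Algebra.smul_def] at this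

theorem Lat.mono (h : ∀ v, E v ≤ E' v) (hx : x ∈ Lat D E) : x ∈ Lat D E' :=
  ⟨rr_mono h hx.1, hx.2⟩

theorem Lat.sum {ι : Type*} (s : Finset ι) (f : ι → F) (hf : ∀ i ∈ s, f i ∈ Lat D E) :
    ∑ i ∈ s, f i ∈ Lat D E :=
  ⟨Submodule.sum_mem _ fun i hi => (hf i hi).1, D.O.sum_mem fun i hi => (hf i hi).2⟩

end Lat

/-- The working context. -/
structure Ctx (D : RedDatum A F Fk) (g : ℕ) : Prop where
  hF : IsCurveOfGenus L F g
  hFk : IsCurveOfGenus k Fk g
  hD : D.HasOrthonormalBases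
  /-- (RR1)+(RR2): orthonormal `A`-bases of the lattices -/
  basis : ∀ E : Divisor L F, ∃ (n : ℕ) (b : Fin n → F), (∀ i, b i ∈ Lat D E) ∧ D.IsOrthonormal b ∧
    ∀ y ∈ Lat D E, ∃ a : Fin n → A, y = ∑ i, algebraMap L F (a i : L) * b i
  /-- (RR3): lifting in large degree -/
  lift : ∀ E : Divisor L F, 2 * (g : ℤ) - 2 < Divisor.degree E →
    ∀ η ∈ riemannRochSpace (Finsupp.mapDomain D.r E), ∃ y ∈ Lat D E, D.redF y = η

namespace Ctx

variable {D : RedDatum A F Fk} {g : ℕ} (C : Ctx D g)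
include C

/-- reduction maps `M(E)` into `L_k(r_* E)` -/
theorem redF_mem {E : Divisor L F} {y : F} (hy : y ∈ Lat D E) :
    D.redF y ∈ riemannRochSpace (Finsupp.mapDomain D.r E) := by
  have := C.hF.hasPrincipalDivisors
  have := C.hFk.hasPrincipalDivisors
  exact D.redF_mem_riemannRochSpace hy.1 hy.2

omit C in
/-- every function becomes integral after multiplication by a nonzero element of `A` -/
theorem exists_smul_mem (D : RedDatum A F Fk) (u : F) :
    ∃ c : A, c ≠ 0 ∧ algebraMap L F (c : L) * u ∈ D.O := by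
  rcases eq_or_ne u 0 with rfl | hu
  · exact ⟨1, one_ne_zero, by rw [mul_zero]; exact D.O.zero_mem⟩
  obtain ⟨c, hc, hne⟩ := D.exists_const_mul_redF_ne_zero hu
  rcases A.mem_or_inv_mem c with h | h
  · refine ⟨⟨c, h⟩, ?_, D.mem_of_redF_ne_zero hne⟩
    intro h0
    exact hc (congrArg Subtype.val h0)
  · refine ⟨1, one_ne_zero, ?_⟩
    have h1 := D.smul_mem ⟨c⁻¹, h⟩ (D.mem_of_redF_ne_zero hne)
    have hcF : algebraMap L F c ≠ 0 := (map_ne_zero _).2 hc
    have : algebraMap L F ((⟨c⁻¹, h⟩ : A) : L) * (algebraMap L F c * u) = u := by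
      show algebraMap L F c⁻¹ * (algebraMap L F c * u) = u
      rw [map_inv₀, ← mul_assoc, inv_mul_cancel₀ hcF, one_mul]
    rw [this] at h1
    show algebraMap L F ((1 : A) : L) * u ∈ D.O
    simpa using h1

omit C in
/-- an orthonormal `A`-basis of `M(E)` spans `L(E)` over `L` -/
theorem exists_coeff {E : Divisor L F} {n : ℕ} {b : Fin n → F}
    (hb : ∀ y ∈ Lat D E, ∃ a : Fin n → A, y = ∑ i, algebraMap L F (a i : L) * b i) {u : F}
    (hu : u ∈ riemannRochSpace E) : ∃ α : Fin n → L, u = ∑ i, algebraMap L F (α i) * b i := by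
  obtain ⟨c, hc, hcu⟩ := exists_smul_mem D u
  have hmem : algebraMap L F (c : L) * u ∈ Lat D E := by
    refine ⟨?_, hcu⟩
    have := Submodule.smul_mem (riemannRochSpace E) (c : L) hu
    rwa [Algebra.smul_def] at this
  obtain ⟨a, ha⟩ := hb _ hmem
  have hc' : (c : L) ≠ 0 := fun h => hc (Subtype.ext h)
  have hcF : algebraMap L F (c : L) ≠ 0 := (map_ne_zero _).2 hc'
  refine ⟨fun i => (c : L)⁻¹ * (a i : L), ?_⟩
  have : u = (algebraMap L F (c : L))⁻¹ * (algebraMap L F (c : L) * u) := by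
    rw [← mul_assoc, inv_mul_cancel₀ hcF, one_mul]
  rw [this, ha, Finset.mul_sum]
  refine Finset.sum_congr rfl fun i _ => ?_
  rw [map_mul, map_inv₀, mul_assoc]

/-- two places with distinct reductions -/
theorem exists_places : ∃ P₁ P₂ : Place L F, D.r P₁ ≠ D.r P₂ := by
  classical
  have := C.hF.hasPrincipalDivisors
  have := C.hFk.hasPrincipalDivisors
  have := C.hFk.infinite_places
  obtain ⟨Q⟩ : Nonempty (Place k Fk) := inferInstance
  -- a function with a pole at `Q`
  obtain ⟨η, hη⟩ : ∃ η : Fk, η ∉ Q.toValuationSubring := by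
    by_contra h
    push Not at h
    exact Q.ne_top' (SetLike.ext fun x => ⟨fun _ => ValuationSubring.mem_top x, fun _ => h x⟩)
  have hη0 : η ≠ 0 := by
    rintro rfl
    exact hη (zero_mem _)
  have hQ : Q.ord η < 0 := by
    by_contra h
    exact hη (Fermat.Agent.ProgramR.FF.mem_of_ord_nonneg Q (not_lt.mp h))
  -- it also has a zero `Q'`
  obtain ⟨Q', hQ'⟩ : ∃ Q' : Place k Fk, 0 < Q'.ord η := by
    by_contra h
    push Not at h
    have hdeg := degree_divOf (K := k) η
    rw [degree_eq_sum'] at hdeg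
    have hle : ∀ v ∈ (divOf (K := k) η).support, divOf (K := k) η v * (v.deg : ℤ) ≤ 0 := by
      intro v _
      rw [divOf_apply hη0, C.hFk.deg_eq_one v]
      have := h v
      simpa using this
    have hQmem : Q ∈ (divOf (K := k) η).support := by
      rw [Finsupp.mem_support_iff, divOf_apply hη0]
      omega
    have := (Finset.sum_eq_zero_iff_of_nonpos hle).mp hdeg Q hQmem
    rw [divOf_apply hη0, C.hFk.deg_eq_one Q] at this
    simp at this
    omega
  obtain ⟨y, hy⟩ := D.red_surjective η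
  have hyF : D.redF (y : F) = η := by rw [D.redF_of_mem y.2]; exact hy
  have hne : D.redF (y : F) ≠ 0 := by rw [hyF]; exact hη0
  have hmap := D.mapDomain_divOf hne
  rw [hyF] at hmap
  have key : ∀ Q₀ : Place k Fk, Q₀.ord η ≠ 0 → ∃ P : Place L F, D.r P = Q₀ := by
    intro Q₀ h0
    have : Q₀ ∈ (Finsupp.mapDomain D.r (divOf (K := L) (y : F))).support := by
      rw [hmap, Finsupp.mem_support_iff, divOf_apply hη0]
      exact h0
    have := Finsupp.mapDomain_support this
    rw [Finset.mem_image] at this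
    obtain ⟨P, -, hP⟩ := this
    exact ⟨P, hP⟩
  obtain ⟨P₁, hP₁⟩ := key Q (by omega)
  obtain ⟨P₂, hP₂⟩ := key Q' (by omega)
  refine ⟨P₁, P₂, ?_⟩
  rw [hP₁, hP₂]
  rintro rfl
  omega

end Ctx

end Fermat.Agent.S18lib.Cech
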