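/-
S18lib / Cech / H1 (helper6).
`H¹(X, O) = B₁₂ / (B₁ + B₂)` is torsion free:
`(L(nP₁) + L(nP₂)) ∩ O = M(nP₁) + M(nP₂)` for two places with distinct reductions.
-/
import Fermat.Agent.S18lib.Cech.Ctx

set_option autoImplicit false

noncomputable section

namespace Fermat.Agent.S18lib.Cech

open AlgebraicCurve

variable {L : Type*} [Field L] {A : ValuationSubring L}
variable {F : Type*} [Field F] [Algebra L F]
variable {Fk : Type*} [Field Fk] [Algebra (IsLocalRing.ResidueField A) Fk]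

local notation "k" => IsLocalRing.ResidueField A

namespace Ctx

variable {D : RedDatum A F Fk} {g : ℕ} (C : Ctx D g)
include C

omit C in
theorem ne_of_r_ne {P₁ P₂ : Place L F} (hr : D.r P₁ ≠ D.r P₂) : P₁ ≠ P₂ := by
  rintro rfl
  exact hr rfl

/-- `L_k(n Q₁) ∩ L_k(n Q₂ - Q₁) = 0` -/
theorem eq_zero_of_mem_of_mem {Q₁ Q₂ : Place k Fk} (hQ : Q₁ ≠ Q₂) (n : ℤ) {x : Fk}
    (h₁ : x ∈ riemannRochSpace (Dv 0 Q₁ Q₂ n 0)) (h₂ : x ∈ riemannRochSpace (Dv 0 Q₁ Q₂ (-1) n)) :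
    x = 0 := by
  have hmem : x ∈ riemannRochSpace (Dv 0 Q₁ Q₂ (-1) 0) :=
    mem_rr_Dv_min 0 hQ h₁ h₂ (Or.inr le_rfl) (Or.inl le_rfl)
  refine eq_zero_of_mem_rr_of_degree_neg C.hFk ?_ hmem
  rw [degree_Dv _ _ _ _ _ (C.hFk.deg_eq_one _) (C.hFk.deg_eq_one _), map_zero]
  norm_num

/-- **`H¹(O)` is torsion free.** -/
theorem h1_torsionFree {P₁ P₂ : Place L F} (hr : D.r P₁ ≠ D.r P₂) (n : ℕ) {u₁ u₂ : F}
    (h₁ : u₁ ∈ riemannRochSpace (Dv 0 P₁ P₂ n 0)) (h₂ : u₂ ∈ riemannRochSpace (Dv 0 P₁ P₂ 0 n))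
    (hO : u₁ - u₂ ∈ D.O) :
    ∃ w₁ ∈ Lat D (Dv 0 P₁ P₂ n 0), ∃ w₂ ∈ Lat D (Dv 0 P₁ P₂ 0 n), u₁ - u₂ = w₁ - w₂ := by
  classical
  have hP : P₁ ≠ P₂ := ne_of_r_ne hr
  -- the value of `u₂` at `P₁`
  have hu₂P : u₂ ∈ P₁.toValuationSubring := by
    rcases eq_or_ne u₂ 0 with rfl | h0
    · exact zero_mem _
    apply Fermat.Agent.ProgramR.FF.mem_of_ord_nonneg
    have := (mem_rr_of_ne h0).mp h₂ P₁
    rw [Dv_apply_fst 0 hP] at this
    simpa using this
  obtain ⟨lam, hlam⟩ := exists_value_of_deg_eq_one P₁ (C.hF.deg_eq_one P₁) hu₂P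
  have hconst : ∀ a b : ℤ, 0 ≤ a → 0 ≤ b →
      algebraMap L F lam ∈ riemannRochSpace (Dv 0 P₁ P₂ a b) := by
    intro a b ha hb
    refine const_mem_rr (fun v => ?_) lam
    rw [Dv_apply]
    simp only [Finsupp.zero_apply, zero_add]
    split_ifs <;> omega
  set u₁' := u₁ - algebraMap L F lam with hu₁'
  set u₂' := u₂ - algebraMap L F lam with hu₂'
  have hu₁'mem : u₁' ∈ riemannRochSpace (Dv 0 P₁ P₂ n 0) :=
    Submodule.sub_mem _ h₁ (hconst _ _ (Int.natCast_nonneg n) le_rfl)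
  have hu₂'mem0 : u₂' ∈ riemannRochSpace (Dv 0 P₁ P₂ 0 n) :=
    Submodule.sub_mem _ h₂ (hconst _ _ le_rfl (Int.natCast_nonneg n))
  have hu₂'mem : u₂' ∈ riemannRochSpace (Dv 0 P₁ P₂ (-1) n) := by
    rw [mem_rr_iff] at hu₂'mem0 ⊢
    intro v
    by_cases hv : v = P₁
    · subst hv
      rcases hlam with h | h
      · left
        rw [hu₂', h, sub_self]
      · right
        rw [Dv_apply_fst 0 hP]
        simpa using h
    · have := hu₂'mem0 v
      rw [Dv_apply, if_neg hv] at this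
      rw [Dv_apply, if_neg hv]
      exact this
  have hdiff : u₁ - u₂ = u₁' - u₂' := by
    rw [hu₁', hu₂']
    ring
  -- orthonormal bases
  obtain ⟨n₁, e, he, heo, hes⟩ := C.basis (Dv 0 P₁ P₂ n 0)
  obtain ⟨n₂, e', he', heo', hes'⟩ := C.basis (Dv 0 P₁ P₂ (-1) n)
  obtain ⟨α, hα⟩ := exists_coeff hes hu₁'mem
  obtain ⟨β, hβ⟩ := exists_coeff hes' hu₂'mem
  -- the combined family is orthonormal
  have hQ : D.r P₁ ≠ D.r P₂ := hr
  have hcomb : D.IsOrthonormal (Sum.elim e e') := by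
    refine ⟨fun i => ?_, ?_⟩
    · rcases i with i | i
      · exact (he i).2
      · exact (he' i).2
    · have hfun : (fun i => D.redF (Sum.elim e e' i)) =
          Sum.elim (fun i => D.redF (e i)) (fun i => D.redF (e' i)) := by
        funext i
        rcases i with i | i <;> rfl
      rw [hfun]
      refine LinearIndependent.sum_type heo.2 heo'.2 ?_
      rw [Submodule.disjoint_def]
      intro x hx hx'
      have h1 : Submodule.span k (Set.range fun i => D.redF (e i)) ≤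
          riemannRochSpace (Dv 0 (D.r P₁) (D.r P₂) n 0) := by
        rw [Submodule.span_le]
        rintro _ ⟨i, rfl⟩
        have := C.redF_mem (he i)
        rwa [mapDomain_Dv, Finsupp.mapDomain_zero] at this
      have h2 : Submodule.span k (Set.range fun i => D.redF (e' i)) ≤
          riemannRochSpace (Dv 0 (D.r P₁) (D.r P₂) (-1) n) := by
        rw [Submodule.span_le]
        rintro _ ⟨i, rfl⟩
        have := C.redF_mem (he' i)
        rwa [mapDomain_Dv, Finsupp.mapDomain_zero] at this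
      exact C.eq_zero_of_mem_of_mem hQ n (h1 hx) (h2 hx')
  -- the coefficients are integral
  have hsum : u₁' - u₂' =
      ∑ x : Fin n₁ ⊕ Fin n₂, algebraMap L F (Sum.elim α (fun j => -β j) x) * Sum.elim e e' x := by
    rw [Fintype.sum_sum_type, hα, hβ]
    simp only [Sum.elim_inl, Sum.elim_inr, map_neg, neg_mul, Finset.sum_neg_distrib]
    ring
  have hint : ∀ x, Sum.elim α (fun j => -β j) x ∈ A := by
    rw [← hcomb.sum_mem_iff, ← hsum, ← hdiff]
    exact hO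
  have hαA : ∀ i, α i ∈ A := fun i => hint (Sum.inl i)
  have hβA : ∀ j, β j ∈ A := fun j => by
    have := A.neg_mem _ (hint (Sum.inr j))
    simpa using this
  refine ⟨u₁', ?_, u₂', ?_, hdiff⟩
  · rw [hα]
    exact Lat.sum _ _ fun i _ => Lat.smul ⟨α i, hαA i⟩ (he i)
  · have : u₂' ∈ Lat D (Dv 0 P₁ P₂ (-1) n) := by
      rw [hβ]
      exact Lat.sum _ _ fun j _ => Lat.smul ⟨β j, hβA j⟩ (he' j)
    exact Lat.mono (Dv_le_Dv 0 P₁ P₂ (by norm_num) le_rfl) this

end Ctx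

end Fermat.Agent.S18lib.Cech
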