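/-
S18lib / Cech / Stabilize (helper6).
Peeling off poles with integral coefficients, and the stabilisation
`M(E + m(P₁+P₂)) = M(E + n(P₁+P₂)) + M(E + m P₁) + M(E + m P₂)` for `m ≥ n > 2g - 2 - deg E`.
-/
import Fermat.Agent.S18lib.Cech.H1

set_option autoImplicit false

noncomputable section

namespace Fermat.Agent.S18lib.Cech

open AlgebraicCurve

variable {L : Type*} [Field L] {A : ValuationSubring L}
variable {F : Type*} [Field F] [Algebra L F]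
variable {Fk : Type*} [Field Fk] [Algebra (IsLocalRing.ResidueField A) Fk]

local notation "k" => IsLocalRing.ResidueField A

theorem Dv_succ_fst {K F : Type*} [Field K] [Field F] [Algebra K F] (E : Divisor K F)
    (P₁ P₂ : Place K F) (a b : ℤ) :
    Dv E P₁ P₂ (a + 1) b = Dv E P₁ P₂ a b + Finsupp.single P₁ 1 := by
  rw [Dv, Dv, Finsupp.single_add]
  abel

namespace Ctx

variable {D : RedDatum A F Fk} {g : ℕ} (C : Ctx D g)
include C

/-- a function in `M(E + (a+1) P₁)` whose reduction has the exact pole order at `r P₁` -/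
theorem exists_exact_pole (E : Divisor L F) (P₁ P₂ : Place L F) (a : ℤ)
    (hdeg : 2 * (g : ℤ) - 2 < Divisor.degree E + a) :
    ∃ y ∈ Lat D (Dv E P₁ P₂ (a + 1) 0),
      D.redF y ∉ riemannRochSpace (Dv (Finsupp.mapDomain D.r E) (D.r P₁) (D.r P₂) a 0) := by
  set Eb := Finsupp.mapDomain D.r E with hEb
  have hdegEb : Divisor.degree Eb = Divisor.degree E := D.degree_mapDomain E
  have hle : riemannRochSpace (Dv Eb (D.r P₁) (D.r P₂) a 0) ≤
      riemannRochSpace (Dv Eb (D.r P₁) (D.r P₂) (a + 1) 0) :=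
    rr_mono (Dv_le_Dv Eb _ _ (by omega) le_rfl)
  have hne : riemannRochSpace (Dv Eb (D.r P₁) (D.r P₂) a 0) ≠
      riemannRochSpace (Dv Eb (D.r P₁) (D.r P₂) (a + 1) 0) := by
    intro heq
    have h1 := C.hFk.riemann_eq (Dv Eb (D.r P₁) (D.r P₂) a 0) (by
      rw [degree_Dv _ _ _ _ _ (C.hFk.deg_eq_one _) (C.hFk.deg_eq_one _), hdegEb]; omega)
    have h2 := C.hFk.riemann_eq (Dv Eb (D.r P₁) (D.r P₂) (a + 1) 0) (by
      rw [degree_Dv _ _ _ _ _ (C.hFk.deg_eq_one _) (C.hFk.deg_eq_one _), hdegEb]; omega)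
    rw [heq, h2, degree_Dv _ _ _ _ _ (C.hFk.deg_eq_one _) (C.hFk.deg_eq_one _),
      degree_Dv _ _ _ _ _ (C.hFk.deg_eq_one _) (C.hFk.deg_eq_one _)] at h1
    omega
  obtain ⟨η, hη, hη'⟩ := SetLike.exists_of_lt (lt_of_le_of_ne hle hne)
  obtain ⟨y, hy, hyη⟩ := C.lift (Dv E P₁ P₂ (a + 1) 0) (by
    rw [degree_Dv _ _ _ _ _ (C.hF.deg_eq_one _) (C.hF.deg_eq_one _)]; omega) η (by
    rw [mapDomain_Dv]; exact hη)
  exact ⟨y, hy, by rw [hyη]; exact hη'⟩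

/-- **Peeling**: the pole of order `a + 1` at `P₁` can be removed by an element of
`M(E + (a+1) P₁)`. -/
theorem peel (E : Divisor L F) {P₁ P₂ : Place L F} (hr : D.r P₁ ≠ D.r P₂) (a b : ℤ) (hb : 0 ≤ b)
    (hdeg : 2 * (g : ℤ) - 2 < Divisor.degree E + a) {x : F}
    (hx : x ∈ Lat D (Dv E P₁ P₂ (a + 1) b)) :
    ∃ y ∈ Lat D (Dv E P₁ P₂ (a + 1) 0), x - y ∈ Lat D (Dv E P₁ P₂ a b) := by
  have hP : P₁ ≠ P₂ := ne_of_r_ne hr
  obtain ⟨y₁, hy₁, hy₁red⟩ := C.exists_exact_pole E P₁ P₂ a hdeg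
  set Eb := Finsupp.mapDomain D.r E with hEb
  -- `y₁ ∉ L(E + a P₁ + b P₂)`
  have hy₁big : y₁ ∈ riemannRochSpace (Dv E P₁ P₂ (a + 1) b) :=
    rr_mono (Dv_le_Dv E _ _ le_rfl hb) hy₁.1
  have hy₁not : y₁ ∉ riemannRochSpace (Dv E P₁ P₂ a b) := by
    intro h
    have h' : y₁ ∈ riemannRochSpace (Dv E P₁ P₂ a 0) :=
      mem_rr_Dv_min E hP hy₁.1 h (Or.inr le_rfl) (Or.inl le_rfl)
    have := C.redF_mem (E := Dv E P₁ P₂ a 0) ⟨h', hy₁.2⟩
    rw [mapDomain_Dv] at this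
    exact hy₁red this
  have hxbig := hx.1
  rw [Dv_succ_fst] at hxbig hy₁big
  obtain ⟨lam, hlam⟩ := exists_sub_smul_mem_rr C.hF (Dv E P₁ P₂ a b) P₁ hxbig hy₁big hy₁not
  -- `lam ∈ A`
  have hlamA : lam ∈ A := by
    by_contra hnot
    have hinv : lam⁻¹ ∈ A := (A.mem_or_inv_mem lam).resolve_left hnot
    have hlam0 : lam ≠ 0 := fun h => hnot (h ▸ A.zero_mem)
    have hmax : (⟨lam⁻¹, hinv⟩ : A) ∈ IsLocalRing.maximalIdeal A := by
      rw [IsLocalRing.mem_maximalIdeal, mem_nonunits_iff]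
      intro hu
      obtain ⟨u, hu⟩ := hu
      apply hnot
      have h1 : ((u⁻¹ : Aˣ) : A) * ⟨lam⁻¹, hinv⟩ = 1 := by rw [← hu]; simp
      have h2 := congrArg (fun z : A => (z : L)) h1
      simp only [MulMemClass.coe_mul, OneMemClass.coe_one] at h2
      have h3 : (((u⁻¹ : Aˣ) : A) : L) = lam := by
        field_simp at h2
        exact h2
      rw [← h3]
      exact ((u⁻¹ : Aˣ) : A).2
    set z := algebraMap L F lam⁻¹ * x - y₁ with hz
    have hzeq : z = lam⁻¹ • (x - lam • y₁) := by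
      rw [hz, smul_sub, smul_smul, inv_mul_cancel₀ hlam0, one_smul, Algebra.smul_def]
    have hzmem : z ∈ Lat D (Dv E P₁ P₂ a b) := by
      refine ⟨?_, ?_⟩
      · rw [hzeq]
        exact Submodule.smul_mem _ _ hlam
      · exact D.O.sub_mem (D.smul_mem ⟨lam⁻¹, hinv⟩ hx.2) hy₁.2
    have hzred : D.redF z = -D.redF y₁ := by
      rw [hz, D.redF_sub (D.smul_mem ⟨lam⁻¹, hinv⟩ hx.2) hy₁.2]
      have := D.redF_smul ⟨lam⁻¹, hinv⟩ hx.2
      rw [(IsLocalRing.residue_eq_zero_iff _).mpr hmax, zero_smul] at this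
      rw [this, zero_sub]
    have h1 := C.redF_mem hzmem
    rw [hzred, mapDomain_Dv] at h1
    have h2 : D.redF y₁ ∈ riemannRochSpace (Dv Eb (D.r P₁) (D.r P₂) a b) := by
      have := Submodule.neg_mem _ h1
      rwa [neg_neg] at this
    have h3 := C.redF_mem hy₁
    rw [mapDomain_Dv] at h3
    exact hy₁red (mem_rr_Dv_min Eb hr h3 h2 (Or.inr le_rfl) (Or.inl le_rfl))
  refine ⟨algebraMap L F lam * y₁, Lat.smul ⟨lam, hlamA⟩ hy₁, ?_, ?_⟩
  · rw [← Algebra.smul_def]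
    exact hlam
  · exact D.O.sub_mem hx.2 (D.smul_mem ⟨lam, hlamA⟩ hy₁.2)

/-- peeling at the second place -/
theorem peel' (E : Divisor L F) {P₁ P₂ : Place L F} (hr : D.r P₁ ≠ D.r P₂) (a b : ℤ) (ha : 0 ≤ a)
    (hdeg : 2 * (g : ℤ) - 2 < Divisor.degree E + b) {x : F}
    (hx : x ∈ Lat D (Dv E P₁ P₂ a (b + 1))) :
    ∃ y ∈ Lat D (Dv E P₁ P₂ 0 (b + 1)), x - y ∈ Lat D (Dv E P₁ P₂ a b) := by
  rw [Dv_swap E P₁ P₂ a (b + 1)] at hx
  obtain ⟨y, hy, hxy⟩ := C.peel E (Ne.symm hr) b a ha hdeg hx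
  refine ⟨y, ?_, ?_⟩
  · rwa [Dv_swap E P₁ P₂ 0 (b + 1)]
  · rwa [Dv_swap E P₁ P₂ a b]

/-- **Stabilisation.** -/
theorem stabilize (E : Divisor L F) {P₁ P₂ : Place L F} (hr : D.r P₁ ≠ D.r P₂) (n : ℤ)
    (hn : 0 ≤ n) (hdeg : 2 * (g : ℤ) - 2 < Divisor.degree E + n) (j : ℕ) {x : F}
    (hx : x ∈ Lat D (Dv E P₁ P₂ (n + j) (n + j))) :
    ∃ y₁ ∈ Lat D (Dv E P₁ P₂ (n + j) 0), ∃ y₂ ∈ Lat D (Dv E P₁ P₂ 0 (n + j)),
      x - y₁ - y₂ ∈ Lat D (Dv E P₁ P₂ n n) := by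
  induction j generalizing x with
  | zero =>
    refine ⟨0, Lat.zero, 0, Lat.zero, ?_⟩
    simpa using hx
  | succ j ih =>
    have e1 : n + ((j + 1 : ℕ) : ℤ) = (n + j) + 1 := by push_cast; ring
    rw [e1] at hx ⊢
    obtain ⟨y, hy, hxy⟩ := C.peel E hr (n + j) (n + j + 1) (by omega) (by omega) hx
    obtain ⟨y', hy', hxy'⟩ := C.peel' E hr (n + j) (n + j) (by omega) (by omega) hxy
    obtain ⟨y₁, hy₁, y₂, hy₂, hfin⟩ := ih hxy'
    refine ⟨y + y₁, Lat.add hy (Lat.mono (Dv_le_Dv E _ _ (by omega) le_rfl) hy₁),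
      y' + y₂, Lat.add hy' (Lat.mono (Dv_le_Dv E _ _ le_rfl (by omega)) hy₂), ?_⟩
    have : x - (y + y₁) - (y' + y₂) = x - y - y' - y₁ - y₂ := by ring
    rw [this]
    exact hfin

end Ctx

end Fermat.Agent.S18lib.Cech
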