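/-
S18lib / Cech / Doubling (helper6).
The doubling step of the Čech argument: two local `s`-th roots of `f⁻¹` (with `div f = s E`) that
agree modulo `c` can be corrected to agree modulo `c²` (`s` invertible in the residue field).
-/
import Fermat.Agent.S18lib.Cech.Stabilize

set_option autoImplicit false

noncomputable section

namespace Fermat.Agent.S18lib.Cech

open AlgebraicCurve

variable {L : Type*} [Field L] {A : ValuationSubring L}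
variable {F : Type*} [Field F] [Algebra L F]
variable {Fk : Type*} [Field Fk] [Algebra (IsLocalRing.ResidueField A) Fk]

local notation "k" => IsLocalRing.ResidueField A

/-! ### two algebraic identities -/

theorem one_sub_pow_expand {R : Type*} [CommRing R] (s : ℕ) (z : R) :
    ∃ p : R, (1 - z) ^ s = 1 - s * z + z ^ 2 * p := by
  induction s with
  | zero => exact ⟨0, by simp⟩
  | succ s ih =>
    obtain ⟨p, hp⟩ := ih
    refine ⟨p + s - z * p, ?_⟩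
    rw [pow_succ, hp]
    push_cast
    ring

theorem newton_identity {R : Type*} [CommRing R] (a c w z₀ p s : R) (h : s * a * z₀ = w) :
    (a + c * w) * (1 - s * (c * z₀) + (c * z₀) ^ 2 * p) =
      a + c ^ 2 * (-(s * w * z₀) + (a + c * w) * z₀ ^ 2 * p) := by
  linear_combination (-c) * h

/-- the data of the doubling argument: the property `Good c` -/
def Good (D : RedDatum A F Fk) (E : Divisor L F) (P₁ P₂ : Place L F) (n : ℕ) (gb : Fk) (c : A) :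
    Prop :=
  ∃ t₁ ∈ Lat D (Dv E P₁ P₂ n 0), ∃ t₂ ∈ Lat D (Dv E P₁ P₂ 0 n),
    D.redF t₁ = gb⁻¹ ∧ D.redF t₂ = gb⁻¹ ∧ ∃ x ∈ D.O, t₁ - t₂ = algebraMap L F (c : L) * x

namespace Ctx

variable {D : RedDatum A F Fk} {g : ℕ} (C : Ctx D g)

omit [Algebra (IsLocalRing.ResidueField A) Fk] in
theorem isUnit_of_residue_ne_zero {a : A} (h : IsLocalRing.residue A a ≠ 0) : IsUnit a := by
  by_contra hu
  exact h ((IsLocalRing.residue_eq_zero_iff a).mpr ((IsLocalRing.mem_maximalIdeal a).mpr hu))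

/-- reduction of an element of `𝔪_A • O` vanishes -/
theorem redF_smul_of_mem_maximalIdeal (D : RedDatum A F Fk) {c : A}
    (hc : c ∈ IsLocalRing.maximalIdeal A) {x : F} (hx : x ∈ D.O) :
    D.redF (algebraMap L F (c : L) * x) = 0 := by
  rw [D.redF_smul c hx, (IsLocalRing.residue_eq_zero_iff _).mpr hc, zero_smul]

/-- reduction of the geometric sum -/
theorem redF_geom_sum₂ (D : RedDatum A F Fk) {t₁ t₂ : F} (h₁ : t₁ ∈ D.O) (h₂ : t₂ ∈ D.O) {η : Fk}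
    (hr₁ : D.redF t₁ = η) (hr₂ : D.redF t₂ = η) (s : ℕ) :
    D.redF (∑ i ∈ Finset.range (s + 1), t₁ ^ i * t₂ ^ (s - i)) = ((s + 1 : ℕ) : Fk) * η ^ s := by
  rw [D.redF_sum _ _ fun i _ => D.O.mul_mem _ _ (D.O.pow_mem h₁ i) (D.O.pow_mem h₂ _)]
  have : ∀ i ∈ Finset.range (s + 1), D.redF (t₁ ^ i * t₂ ^ (s - i)) = η ^ s := by
    intro i hi
    rw [D.redF_mul (D.O.pow_mem h₁ i) (D.O.pow_mem h₂ _), D.redF_pow h₁, D.redF_pow h₂, hr₁, hr₂,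
      ← pow_add]
    congr 1
    have := Finset.mem_range.mp hi
    omega
  rw [Finset.sum_congr rfl this, Finset.sum_const, Finset.card_range, nsmul_eq_mul]

/-- Newton step on one chart -/
theorem newton_chart (D : RedDatum A F Fk) (s : ℕ) {f t w : F} (hw : w ∈ D.O)
    (c a₀ dinv : A) (hd : (s : L) * (a₀ : L) * (dinv : L) = 1)
    (hβ : f * t ^ s = algebraMap L F (a₀ : L) + algebraMap L F (c : L) * w) :
    ∃ ρ ∈ D.O, f * (t * (1 - algebraMap L F (c : L) * (algebraMap L F (dinv : L) * w))) ^ s =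
      algebraMap L F (a₀ : L) + algebraMap L F (c : L) ^ 2 * ρ := by
  set cF := algebraMap L F (c : L) with hcF
  set z₀ := algebraMap L F (dinv : L) * w with hz₀
  have hz₀O : z₀ ∈ D.O := D.smul_mem dinv hw
  have hczO : cF * z₀ ∈ D.O := D.smul_mem c hz₀O
  obtain ⟨p, hp⟩ := one_sub_pow_expand s (⟨cF * z₀, hczO⟩ : D.O)
  have hp' : (1 - cF * z₀) ^ s = 1 - (s : F) * (cF * z₀) + (cF * z₀) ^ 2 * (p : F) := by
    have := congrArg (D.O.subtype) hp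
    simpa using this
  have hsa : (s : F) * algebraMap L F (a₀ : L) * z₀ = w := by
    rw [hz₀, ← mul_assoc, ← map_natCast (algebraMap L F) s, ← map_mul, ← map_mul, hd, map_one,
      one_mul]
  refine ⟨-((s : F) * w * z₀) + (algebraMap L F (a₀ : L) + cF * w) * z₀ ^ 2 * (p : F), ?_, ?_⟩
  · refine D.O.add_mem _ _ (D.O.neg_mem _ (D.O.mul_mem _ _ (D.O.mul_mem _ _ ?_ hw) hz₀O)) ?_
    · rw [← map_natCast (algebraMap L F) s]
      exact D.algebraMap_mem (s : A)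
    · exact D.O.mul_mem _ _ (D.O.mul_mem _ _ (D.O.add_mem _ _ (D.algebraMap_mem a₀)
        (D.smul_mem c hw)) (D.O.pow_mem hz₀O 2)) p.2
  · rw [mul_pow, ← mul_assoc, hβ, hp']
    exact newton_identity _ _ _ _ _ _ hsa

omit [Algebra (IsLocalRing.ResidueField A) Fk] in
/-- `f t^s ∈ L(s a P₁ + s b P₂)` if `div f = s E` and `t ∈ L(E + a P₁ + b P₂)` -/
theorem mul_pow_mem_rr {E : Divisor L F} (P₁ P₂ : Place L F) (s : ℕ) {f : F} (hf0 : f ≠ 0)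
    (hfdiv : ∀ v, (s • E) v = v.ord f) (a b : ℤ) {t : F}
    (ht : t ∈ riemannRochSpace (Dv E P₁ P₂ a b)) :
    f * t ^ s ∈ riemannRochSpace (Dv 0 P₁ P₂ (s * a) (s * b)) := by
  classical
  have h1 := mul_mem_rr (mem_rr_neg_of_div hf0 hfdiv) (pow_mem_rr ht s)
  refine rr_mono (fun v => le_of_eq ?_) h1
  rw [Finsupp.add_apply, Finsupp.neg_apply, Finsupp.smul_apply, Finsupp.smul_apply, Dv_apply,
    Dv_apply, Finsupp.zero_apply, nsmul_eq_mul, nsmul_eq_mul]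
  split_ifs <;> ring

include C in
/-- **The doubling step.** -/
theorem doubling {E : Divisor L F} {P₁ P₂ : Place L F}
    (hr : D.r P₁ ≠ D.r P₂) (n : ℕ) (hn : 2 * (g : ℤ) - 2 < Divisor.degree E + n) (s : ℕ)
    (hs : (s : k) ≠ 0) {f : F} (hfO : f ∈ D.O) (hf0 : f ≠ 0) (hfdiv : ∀ v, (s • E) v = v.ord f)
    {gb : Fk} (hgb : gb ≠ 0) (hfred : D.redF f = gb ^ s) {c : A}
    (hc : c ∈ IsLocalRing.maximalIdeal A) (hG : Good D E P₁ P₂ n gb c) :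
    Good D E P₁ P₂ n gb (c ^ 2) := by
  classical
  have hP : P₁ ≠ P₂ := ne_of_r_ne hr
  rcases eq_or_ne c 0 with rfl | hc0
  · simpa using hG
  obtain ⟨t₁, ht₁, t₂, ht₂, hr₁, hr₂, x, hxO, hx⟩ := hG
  have hcL : (c : L) ≠ 0 := fun h => hc0 (Subtype.ext h)
  set cF := algebraMap L F (c : L) with hcF
  have hcF0 : cF ≠ 0 := (map_ne_zero _).2 hcL
  obtain ⟨s', rfl⟩ : ∃ s', s = s' + 1 := by
    rcases s with _ | s'
    · exact absurd (by simp) hs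
    · exact ⟨s', rfl⟩
  -- the functions `β_i = f t_i^s`
  set β₁ := f * t₁ ^ (s' + 1) with hβ₁
  set β₂ := f * t₂ ^ (s' + 1) with hβ₂
  have hβ₁mem : β₁ ∈ riemannRochSpace (Dv 0 P₁ P₂ (((s' + 1) * n : ℕ) : ℤ) 0) := by
    have := mul_pow_mem_rr P₁ P₂ (s' + 1) hf0 hfdiv n 0 ht₁.1
    simpa using this
  have hβ₂mem : β₂ ∈ riemannRochSpace (Dv 0 P₁ P₂ 0 (((s' + 1) * n : ℕ) : ℤ)) := by
    have := mul_pow_mem_rr P₁ P₂ (s' + 1) hf0 hfdiv 0 n ht₂.1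
    simpa using this
  have hβ₁O : β₁ ∈ D.O := D.O.mul_mem _ _ hfO (D.O.pow_mem ht₁.2 _)
  have hβ₂O : β₂ ∈ D.O := D.O.mul_mem _ _ hfO (D.O.pow_mem ht₂.2 _)
  have hgbinv : gb ^ (s' + 1) * gb⁻¹ ^ (s' + 1) = 1 := by
    rw [← mul_pow, mul_inv_cancel₀ hgb, one_pow]
  have hβ₁red : D.redF β₁ = 1 := by
    rw [hβ₁, D.redF_mul hfO (D.O.pow_mem ht₁.2 _), D.redF_pow ht₁.2, hfred, hr₁, hgbinv]
  have hβ₂red : D.redF β₂ = 1 := by
    rw [hβ₂, D.redF_mul hfO (D.O.pow_mem ht₂.2 _), D.redF_pow ht₂.2, hfred, hr₂, hgbinv]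
  -- `β₁ - β₂ = c w`
  set σ₀ := ∑ i ∈ Finset.range (s' + 1), t₁ ^ i * t₂ ^ (s' - i) with hσ₀
  have hσ₀O : σ₀ ∈ D.O :=
    D.O.sum_mem fun i _ => D.O.mul_mem _ _ (D.O.pow_mem ht₁.2 i) (D.O.pow_mem ht₂.2 _)
  have hgeom : σ₀ * (t₁ - t₂) = t₁ ^ (s' + 1) - t₂ ^ (s' + 1) := by
    have := (Commute.all t₁ t₂).geom_sum₂_mul (s' + 1)
    simpa using this
  set w := x * f * σ₀ with hw
  have hwO : w ∈ D.O := D.O.mul_mem _ _ (D.O.mul_mem _ _ hxO hfO) hσ₀O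
  have hcw : cF * w = β₁ - β₂ := by
    rw [hβ₁, hβ₂, ← mul_sub, ← hgeom, hx, hw]
    ring
  -- `w = w₁ - w₂`
  have hu₁ : cF⁻¹ * β₁ ∈ riemannRochSpace (Dv 0 P₁ P₂ (((s' + 1) * n : ℕ) : ℤ) 0) := by
    have := Submodule.smul_mem _ ((c : L)⁻¹) hβ₁mem
    rwa [Algebra.smul_def, map_inv₀] at this
  have hu₂ : cF⁻¹ * β₂ ∈ riemannRochSpace (Dv 0 P₁ P₂ 0 (((s' + 1) * n : ℕ) : ℤ)) := by
    have := Submodule.smul_mem _ ((c : L)⁻¹) hβ₂mem
    rwa [Algebra.smul_def, map_inv₀] at this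
  have hu : cF⁻¹ * β₁ - cF⁻¹ * β₂ = w := by
    rw [← mul_sub, ← hcw, ← mul_assoc, inv_mul_cancel₀ hcF0, one_mul]
  obtain ⟨w₁, hw₁, w₂, hw₂, hww⟩ := C.h1_torsionFree hr ((s' + 1) * n) hu₁ hu₂ (by rw [hu]; exact hwO)
  rw [hu] at hww
  -- the constant `a`
  set a := β₁ - cF * w₁ with ha
  have ha' : a = β₂ - cF * w₂ := by
    have : cF * w₁ - cF * w₂ = β₁ - β₂ := by rw [← mul_sub, ← hww, hcw]
    rw [ha]
    linear_combination -this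
  have haO : a ∈ D.O := D.O.sub_mem hβ₁O (D.smul_mem c hw₁.2)
  have hamem : a ∈ riemannRochSpace (0 : Divisor L F) := by
    have h1 : a ∈ riemannRochSpace (Dv 0 P₁ P₂ (((s' + 1) * n : ℕ) : ℤ) 0) := by
      rw [ha]
      refine Submodule.sub_mem _ hβ₁mem ?_
      have := Submodule.smul_mem _ (c : L) hw₁.1
      rwa [Algebra.smul_def] at this
    have h2 : a ∈ riemannRochSpace (Dv 0 P₁ P₂ 0 (((s' + 1) * n : ℕ) : ℤ)) := by
      rw [ha']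
      refine Submodule.sub_mem _ hβ₂mem ?_
      have := Submodule.smul_mem _ (c : L) hw₂.1
      rwa [Algebra.smul_def] at this
    have := mem_rr_Dv_min 0 hP (a'' := 0) (b'' := 0) h1 h2 (Or.inr le_rfl) (Or.inl le_rfl)
    rwa [Dv_zero_zero] at this
  rw [C.hF.riemannRochSpace_zero] at hamem
  obtain ⟨a₀, ha₀⟩ : ∃ a₀ : L, algebraMap L F a₀ = a := Algebra.mem_bot.mp hamem
  have ha₀A : a₀ ∈ A := (D.algebraMap_mem_iff a₀).mp (by rw [ha₀]; exact haO)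
  have hared : D.redF a = 1 := by
    rw [ha, D.redF_sub hβ₁O (D.smul_mem c hw₁.2), hβ₁red,
      redF_smul_of_mem_maximalIdeal D hc hw₁.2, sub_zero]
  have ha₀unit : IsUnit (⟨a₀, ha₀A⟩ : A) := by
    apply isUnit_of_residue_ne_zero
    intro h0
    have := D.redF_algebraMap ⟨a₀, ha₀A⟩
    rw [h0, map_zero] at this
    have h1 : D.redF a = 0 := by rw [← ha₀]; exact this
    rw [hared] at h1
    exact one_ne_zero h1
  have hsunit : IsUnit (((s' + 1 : ℕ) : A)) := by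
    apply isUnit_of_residue_ne_zero
    rw [map_natCast]
    exact hs
  obtain ⟨d, hd⟩ := hsunit.mul ha₀unit
  set dinv : A := ((d⁻¹ : Aˣ) : A) with hdinv
  have hdd : ((s' + 1 : ℕ) : L) * a₀ * (dinv : L) = 1 := by
    have h1 : (d : A) * dinv = 1 := by rw [hdinv]; simp
    have h2 := congrArg (fun z : A => (z : L)) h1
    simp only [MulMemClass.coe_mul, OneMemClass.coe_one] at h2
    rw [← h2, hd]
    simp
  -- Newton step on both charts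
  have hβ₁eq : f * t₁ ^ (s' + 1) = algebraMap L F ((⟨a₀, ha₀A⟩ : A) : L) + cF * w₁ := by
    show β₁ = algebraMap L F a₀ + cF * w₁
    rw [ha₀, ha]; ring
  have hβ₂eq : f * t₂ ^ (s' + 1) = algebraMap L F ((⟨a₀, ha₀A⟩ : A) : L) + cF * w₂ := by
    show β₂ = algebraMap L F a₀ + cF * w₂
    rw [ha₀, ha']; ring
  obtain ⟨ρ₁, hρ₁O, hρ₁⟩ := newton_chart D (s' + 1) hw₁.2 c ⟨a₀, ha₀A⟩ dinv hdd hβ₁eq
  obtain ⟨ρ₂, hρ₂O, hρ₂⟩ := newton_chart D (s' + 1) hw₂.2 c ⟨a₀, ha₀A⟩ dinv hdd hβ₂eq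
  set z₁ := algebraMap L F (dinv : L) * w₁ with hz₁
  set z₂ := algebraMap L F (dinv : L) * w₂ with hz₂
  have hz₁L : z₁ ∈ Lat D (Dv 0 P₁ P₂ (((s' + 1) * n : ℕ) : ℤ) 0) := Lat.smul dinv hw₁
  have hz₂L : z₂ ∈ Lat D (Dv 0 P₁ P₂ 0 (((s' + 1) * n : ℕ) : ℤ)) := Lat.smul dinv hw₂
  set t₁' := t₁ * (1 - cF * z₁) with ht₁'
  set t₂' := t₂ * (1 - cF * z₂) with ht₂'
  set j : ℕ := (s' + 1) * n with hj
  -- memberships of `t_i'`
  have hone₁ : (1 - cF * z₁) ∈ Lat D (Dv 0 P₁ P₂ (j : ℤ) 0) := by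
    refine Lat.sub ⟨one_mem_rr fun v => ?_, D.O.one_mem⟩ (Lat.smul c hz₁L)
    rw [Dv_apply]
    simp only [Finsupp.zero_apply, zero_add]
    split_ifs <;> omega
  have hone₂ : (1 - cF * z₂) ∈ Lat D (Dv 0 P₁ P₂ 0 (j : ℤ)) := by
    refine Lat.sub ⟨one_mem_rr fun v => ?_, D.O.one_mem⟩ (Lat.smul c hz₂L)
    rw [Dv_apply]
    simp only [Finsupp.zero_apply, zero_add]
    split_ifs <;> omega
  have ht₁'L : t₁' ∈ Lat D (Dv E P₁ P₂ ((n : ℤ) + j) 0) := by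
    refine ⟨rr_mono (fun v => le_of_eq ?_) (mul_mem_rr ht₁.1 hone₁.1), D.O.mul_mem _ _ ht₁.2 hone₁.2⟩
    rw [Finsupp.add_apply, Dv_apply, Dv_apply, Dv_apply, Finsupp.zero_apply]
    split_ifs <;> ring
  have ht₂'L : t₂' ∈ Lat D (Dv E P₁ P₂ 0 ((n : ℤ) + j)) := by
    refine ⟨rr_mono (fun v => le_of_eq ?_) (mul_mem_rr ht₂.1 hone₂.1), D.O.mul_mem _ _ ht₂.2 hone₂.2⟩
    rw [Finsupp.add_apply, Dv_apply, Dv_apply, Dv_apply, Finsupp.zero_apply]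
    split_ifs <;> ring
  have hred₁' : D.redF t₁' = gb⁻¹ := by
    rw [ht₁', D.redF_mul ht₁.2 hone₁.2, D.redF_sub D.O.one_mem (D.smul_mem c hz₁L.2), D.redF_one,
      redF_smul_of_mem_maximalIdeal D hc hz₁L.2, sub_zero, mul_one, hr₁]
  have hred₂' : D.redF t₂' = gb⁻¹ := by
    rw [ht₂', D.redF_mul ht₂.2 hone₂.2, D.redF_sub D.O.one_mem (D.smul_mem c hz₂L.2), D.redF_one,
      redF_smul_of_mem_maximalIdeal D hc hz₂L.2, sub_zero, mul_one, hr₂]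
  -- `t₁' - t₂' = c² x'`
  set σ := ∑ i ∈ Finset.range (s' + 1), t₁' ^ i * t₂' ^ (s' - i) with hσ
  have hσO : σ ∈ D.O :=
    D.O.sum_mem fun i _ => D.O.mul_mem _ _ (D.O.pow_mem ht₁'L.2 i) (D.O.pow_mem ht₂'L.2 _)
  have hgeom' : σ * (t₁' - t₂') = t₁' ^ (s' + 1) - t₂' ^ (s' + 1) := by
    have := (Commute.all t₁' t₂').geom_sum₂_mul (s' + 1)
    simpa using this
  have hσred : D.redF (f * σ) = ((s' + 1 : ℕ) : Fk) * gb := by
    rw [D.redF_mul hfO hσO, hfred, redF_geom_sum₂ D ht₁'L.2 ht₂'L.2 hred₁' hred₂' s', pow_succ]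
    have : gb ^ s' * gb⁻¹ ^ s' = 1 := by rw [← mul_pow, mul_inv_cancel₀ hgb, one_pow]
    calc gb ^ s' * gb * (((s' + 1 : ℕ) : Fk) * gb⁻¹ ^ s')
        = ((s' + 1 : ℕ) : Fk) * gb * (gb ^ s' * gb⁻¹ ^ s') := by ring
      _ = ((s' + 1 : ℕ) : Fk) * gb := by rw [this, mul_one]
  have hσne : D.redF (f * σ) ≠ 0 := by
    rw [hσred]
    refine mul_ne_zero ?_ hgb
    have : ((s' + 1 : ℕ) : Fk) = algebraMap k Fk ((s' + 1 : ℕ) : k) := by simp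
    rw [this]
    exact (map_ne_zero _).2 hs
  have hfσinv : (f * σ)⁻¹ ∈ D.O := D.inv_mem_of_redF_ne_zero hσne
  have hfσ0 : f * σ ≠ 0 := by
    intro h
    rw [h, D.redF_zero] at hσne
    exact hσne rfl
  set x' := (ρ₁ - ρ₂) * (f * σ)⁻¹ with hx'
  have hx'O : x' ∈ D.O := D.O.mul_mem _ _ (D.O.sub_mem hρ₁O hρ₂O) hfσinv
  have hdiff' : t₁' - t₂' = cF ^ 2 * x' := by
    have h1 : (f * σ) * (t₁' - t₂') = cF ^ 2 * (ρ₁ - ρ₂) := by
      rw [mul_assoc, hgeom', mul_sub, hρ₁, hρ₂]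
      ring
    rw [hx', ← mul_assoc, ← h1, mul_comm (f * σ) (t₁' - t₂'), mul_assoc,
      mul_inv_cancel₀ hfσ0, mul_one]
  -- pole orders of `x'`
  have hcF2 : cF ^ 2 = algebraMap L F (((c ^ 2 : A) : A) : L) := by
    rw [hcF]; simp
  have hx'mem : x' ∈ Lat D (Dv E P₁ P₂ ((n : ℤ) + j) ((n : ℤ) + j)) := by
    refine ⟨?_, hx'O⟩
    have h1 : t₁' - t₂' ∈ riemannRochSpace (Dv E P₁ P₂ ((n : ℤ) + j) ((n : ℤ) + j)) :=
      Submodule.sub_mem _ (rr_mono (Dv_le_Dv E _ _ le_rfl (by omega)) ht₁'L.1)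
        (rr_mono (Dv_le_Dv E _ _ (by omega) le_rfl) ht₂'L.1)
    have h2 := Submodule.smul_mem _ (((c : L) ^ 2)⁻¹) h1
    have h3 : ((c : L) ^ 2)⁻¹ • (t₁' - t₂') = x' := by
      rw [hdiff', Algebra.smul_def, map_inv₀, map_pow, ← mul_assoc,
        inv_mul_cancel₀ (pow_ne_zero 2 hcF0), one_mul]
    rwa [h3] at h2
  obtain ⟨y₁, hy₁, y₂, hy₂, hx''⟩ := C.stabilize E hr n (Int.natCast_nonneg n) hn j hx'mem
  set x'' := x' - y₁ - y₂ with hx''def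
  -- the corrected functions
  set t₁'' := t₁' - cF ^ 2 * y₁ with ht₁''
  set t₂'' := t₂' + cF ^ 2 * y₂ with ht₂''
  have hc2max : c ^ 2 ∈ IsLocalRing.maximalIdeal A := Ideal.pow_mem_of_mem _ hc 2 (by norm_num)
  have hdiff'' : t₁'' - t₂'' = cF ^ 2 * x'' := by
    rw [ht₁'', ht₂'', hx''def]
    linear_combination hdiff'
  have hsm₁ : cF ^ 2 * y₁ ∈ Lat D (Dv E P₁ P₂ ((n : ℤ) + j) 0) := by
    rw [hcF2]; exact Lat.smul (c ^ 2) hy₁
  have hsm₂ : cF ^ 2 * y₂ ∈ Lat D (Dv E P₁ P₂ 0 ((n : ℤ) + j)) := by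
    rw [hcF2]; exact Lat.smul (c ^ 2) hy₂
  have hsm : cF ^ 2 * x'' ∈ Lat D (Dv E P₁ P₂ n n) := by
    rw [hcF2]; exact Lat.smul (c ^ 2) hx''
  have ht₁''big : t₁'' ∈ Lat D (Dv E P₁ P₂ ((n : ℤ) + j) 0) := Lat.sub ht₁'L hsm₁
  have ht₂''big : t₂'' ∈ Lat D (Dv E P₁ P₂ 0 ((n : ℤ) + j)) := Lat.add ht₂'L hsm₂
  have ht₁''L : t₁'' ∈ Lat D (Dv E P₁ P₂ n 0) := by
    refine ⟨?_, ht₁''big.2⟩
    have h1 : t₁'' = t₂'' + cF ^ 2 * x'' := by rw [← hdiff'']; ring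
    have h2 : t₁'' ∈ riemannRochSpace (Dv E P₁ P₂ n ((n : ℤ) + j)) := by
      rw [h1]
      exact Submodule.add_mem _ (rr_mono (Dv_le_Dv E _ _ (Int.natCast_nonneg n) le_rfl) ht₂''big.1)
        (rr_mono (Dv_le_Dv E _ _ le_rfl (by omega)) hsm.1)
    exact mem_rr_Dv_min E hP ht₁''big.1 h2 (Or.inr le_rfl) (Or.inl le_rfl)
  have ht₂''L : t₂'' ∈ Lat D (Dv E P₁ P₂ 0 n) := by
    refine ⟨?_, ht₂''big.2⟩
    have h1 : t₂'' = t₁'' - cF ^ 2 * x'' := by rw [← hdiff'']; ring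
    have h2 : t₂'' ∈ riemannRochSpace (Dv E P₁ P₂ ((n : ℤ) + j) n) := by
      rw [h1]
      exact Submodule.sub_mem _ (rr_mono (Dv_le_Dv E _ _ le_rfl (Int.natCast_nonneg n)) ht₁''big.1)
        (rr_mono (Dv_le_Dv E _ _ (by omega) le_rfl) hsm.1)
    exact mem_rr_Dv_min E hP ht₂''big.1 h2 (Or.inl le_rfl) (Or.inr le_rfl)
  refine ⟨t₁'', ht₁''L, t₂'', ht₂''L, ?_, ?_, x'', hx''.2, ?_⟩
  · rw [ht₁'', D.redF_sub ht₁'L.2 hsm₁.2, hred₁', hcF2,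
      redF_smul_of_mem_maximalIdeal D hc2max hy₁.2, sub_zero]
  · rw [ht₂'', D.redF_add ht₂'L.2 hsm₂.2, hred₂', hcF2,
      redF_smul_of_mem_maximalIdeal D hc2max hy₂.2, add_zero]
  · rw [hdiff'', hcF2]

end Ctx

end Fermat.Agent.S18lib.Cech
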