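/-
S18lib / Cech / Main (helper6).
The Čech doubling theorem from the working context `Ctx`:
`deg E = 0`, `s E` principal, `r_* E` principal, `s` invertible in the residue field, `A` of rank one
`⟹ E` principal.
-/
import Fermat.Agent.S18lib.Cech.Doubling

set_option autoImplicit false

noncomputable section

namespace Fermat.Agent.S18lib.Cech

open AlgebraicCurve

variable {L : Type*} [Field L] {A : ValuationSubring L}
variable {F : Type*} [Field F] [Algebra L F]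
variable {Fk : Type*} [Field Fk] [Algebra (IsLocalRing.ResidueField A) Fk]

local notation "k" => IsLocalRing.ResidueField A

/-- a common denominator for a finite family -/
theorem exists_common_smul_mem (D : RedDatum A F Fk) {ι : Type*} [Fintype ι] (u : ι → F) :
    ∃ c : A, c ≠ 0 ∧ ∀ i, algebraMap L F (c : L) * u i ∈ D.O := by
  classical
  choose c hc0 hc using fun i => Ctx.exists_smul_mem D (u i)
  refine ⟨∏ i, c i, Finset.prod_ne_zero_iff.mpr fun i _ => hc0 i, fun i => ?_⟩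
  rw [← Finset.mul_prod_erase Finset.univ c (Finset.mem_univ i)]
  have : algebraMap L F ((c i * ∏ x ∈ Finset.univ.erase i, c x : A) : L) * u i =
      algebraMap L F ((∏ x ∈ Finset.univ.erase i, c x : A) : L) * (algebraMap L F (c i : L) * u i) := by
    rw [MulMemClass.coe_mul, map_mul]
    ring
  rw [this]
  exact D.smul_mem _ (hc i)

namespace Ctx

variable {D : RedDatum A F Fk} {g : ℕ} (C : Ctx D g)
include C

/-- **bounded torsion of `H¹(O(E))`** -/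
theorem exists_torsion_bound (E : Divisor L F) (P₁ P₂ : Place L F) (a b : ℤ) :
    ∃ c₀ : A, c₀ ≠ 0 ∧ ∀ x ∈ D.O, ∀ u₁ ∈ riemannRochSpace (Dv E P₁ P₂ a 0),
      ∀ u₂ ∈ riemannRochSpace (Dv E P₁ P₂ 0 b), x = u₁ - u₂ →
        ∃ m₁ ∈ Lat D (Dv E P₁ P₂ a 0), ∃ m₂ ∈ Lat D (Dv E P₁ P₂ 0 b),
          algebraMap L F (c₀ : L) * x = m₁ - m₂ := by
  classical
  set V₁ := riemannRochSpace (Dv E P₁ P₂ a 0) with hV₁
  set V₂ := riemannRochSpace (Dv E P₁ P₂ 0 b) with hV₂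
  have : FiniteDimensional L V₁ := C.hF.finiteDimensional _
  have : FiniteDimensional L V₂ := C.hF.finiteDimensional _
  set W : Submodule L F := V₁ ⊔ V₂ with hW
  have : FiniteDimensional L W := Submodule.finiteDimensional_sup V₁ V₂
  obtain ⟨ε, hεW, hεo⟩ := C.hD W inferInstance
  -- `ε` spans `W`
  have hspan : ∀ x ∈ W, x ∈ Submodule.span L (Set.range ε) := by
    set ε' : Fin (Module.finrank L W) → W := fun i => ⟨ε i, hεW i⟩ with hε'
    have hli : LinearIndependent L ε' := by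
      apply LinearIndependent.of_comp W.subtype
      exact hεo.linearIndependent
    have htop := hli.span_eq_top_of_card_eq_finrank' (by simp)
    intro x hx
    have h1 : (⟨x, hx⟩ : W) ∈ Submodule.span L (Set.range ε') := by rw [htop]; trivial
    have h2 := Submodule.apply_mem_span_image_of_mem_span W.subtype h1
    rw [← Set.range_comp] at h2
    exact h2
  -- decompose the basis
  have hdec : ∀ l, ∃ p ∈ V₁, ∃ q ∈ V₂, p + q = ε l := fun l => Submodule.mem_sup.mp (hεW l)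
  choose p hp q hq hpq using hdec
  obtain ⟨c₀, hc₀, hc₀O⟩ := exists_common_smul_mem D (Sum.elim p q)
  refine ⟨c₀, hc₀, ?_⟩
  intro x hxO u₁ hu₁ u₂ hu₂ hxu
  have hxW : x ∈ W := by
    rw [hxu]
    exact Submodule.sub_mem _ (Submodule.mem_sup_left hu₁) (Submodule.mem_sup_right hu₂)
  obtain ⟨α, hα⟩ := hεo.exists_coeff_of_mem_span (hspan x hxW) hxO
  have hpL : ∀ l, algebraMap L F (c₀ : L) * p l ∈ Lat D (Dv E P₁ P₂ a 0) := fun l => by
    refine ⟨?_, hc₀O (Sum.inl l)⟩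
    have := Submodule.smul_mem V₁ (c₀ : L) (hp l)
    rwa [Algebra.smul_def] at this
  have hqL : ∀ l, algebraMap L F (c₀ : L) * q l ∈ Lat D (Dv E P₁ P₂ 0 b) := fun l => by
    refine ⟨?_, hc₀O (Sum.inr l)⟩
    have := Submodule.smul_mem V₂ (c₀ : L) (hq l)
    rwa [Algebra.smul_def] at this
  refine ⟨∑ l, algebraMap L F (α l : L) * (algebraMap L F (c₀ : L) * p l),
    Lat.sum _ _ fun l _ => Lat.smul (α l) (hpL l),
    -∑ l, algebraMap L F (α l : L) * (algebraMap L F (c₀ : L) * q l),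
    Lat.neg (Lat.sum _ _ fun l _ => Lat.smul (α l) (hqL l)), ?_⟩
  rw [hα, sub_neg_eq_add, ← Finset.sum_add_distrib, Finset.mul_sum]
  refine Finset.sum_congr rfl fun l _ => ?_
  rw [← hpq l]
  ring

/-- normalisation of the function `f` with `div f = s E`: its reduction is `gb ^ s` -/
theorem exists_normalized (s : ℕ) {E : Divisor L F}
    (hsE : s • E ∈ Divisor.principal (K := L) (F := F)) {gb : Fk} (hgb : gb ≠ 0)
    (hgbdiv : ∀ Q : Place k Fk, Finsupp.mapDomain D.r E Q = Q.ord gb) :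
    ∃ f : F, f ∈ D.O ∧ f ≠ 0 ∧ (∀ v, (s • E) v = v.ord f) ∧ D.redF f = gb ^ s := by
  have := C.hF.hasPrincipalDivisors
  have := C.hFk.hasPrincipalDivisors
  obtain ⟨f₀, hf₀, hdiv₀⟩ := hsE
  obtain ⟨c₁, hc₁, hne⟩ := D.exists_const_mul_redF_ne_zero hf₀
  set f₁ := algebraMap L F c₁ * f₀ with hf₁
  have hc₁F : algebraMap L F c₁ ≠ 0 := (map_ne_zero _).2 hc₁
  have hf₁0 : f₁ ≠ 0 := mul_ne_zero hc₁F hf₀
  have hf₁O : f₁ ∈ D.O := D.mem_of_redF_ne_zero hne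
  have hdiv₁ : ∀ v : Place L F, (s • E) v = v.ord f₁ := by
    intro v
    rw [hf₁, v.ord_mul hc₁F hf₀, ord_const, zero_add, hdiv₀ v]
  have hdivOf : divOf (K := L) f₁ = s • E := by
    ext v
    rw [divOf_apply hf₁0, hdiv₁ v]
  have hmap := D.mapDomain_divOf hne
  rw [hdivOf, Finsupp.mapDomain_smul] at hmap
  set φ := D.redF f₁ with hφ
  -- `φ / gb^s` is a nonzero constant
  have hord : ∀ Q : Place k Fk, Q.ord (φ * (gb ^ s)⁻¹) = 0 := by
    intro Q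
    have h1 := DFunLike.congr_fun hmap Q
    rw [Finsupp.smul_apply, hgbdiv Q, divOf_apply hne] at h1
    rw [Q.ord_mul hne (inv_ne_zero (pow_ne_zero s hgb)), Q.ord_inv, ord_pow, ← h1]
    simp
  have hκmem : φ * (gb ^ s)⁻¹ ∈ riemannRochSpace (0 : Divisor k Fk) := by
    rw [mem_rr_of_ne (mul_ne_zero hne (inv_ne_zero (pow_ne_zero s hgb)))]
    intro Q
    rw [hord Q]
    simp
  rw [C.hFk.riemannRochSpace_zero] at hκmem
  obtain ⟨κ₀, hκ₀⟩ : ∃ κ₀ : k, algebraMap k Fk κ₀ = φ * (gb ^ s)⁻¹ := Algebra.mem_bot.mp hκmem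
  have hκ₀0 : κ₀ ≠ 0 := by
    rintro rfl
    rw [map_zero] at hκ₀
    exact mul_ne_zero hne (inv_ne_zero (pow_ne_zero s hgb)) hκ₀.symm
  obtain ⟨a₁, ha₁⟩ := IsLocalRing.residue_surjective (R := A) κ₀
  have ha₁u : IsUnit a₁ := isUnit_of_residue_ne_zero (by rw [ha₁]; exact hκ₀0)
  obtain ⟨u, hu⟩ := ha₁u
  set b₁ : A := ((u⁻¹ : Aˣ) : A) with hb₁
  have hb₁res : IsLocalRing.residue A b₁ * κ₀ = 1 := by
    rw [← ha₁, ← map_mul, hb₁, ← hu]
    simp
  have hb₁L : (b₁ : L) ≠ 0 := by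
    intro h
    have : b₁ = 0 := Subtype.ext h
    rw [this, map_zero, zero_mul] at hb₁res
    exact zero_ne_one hb₁res
  have hb₁F : algebraMap L F (b₁ : L) ≠ 0 := (map_ne_zero _).2 hb₁L
  refine ⟨algebraMap L F (b₁ : L) * f₁, D.smul_mem b₁ hf₁O, mul_ne_zero hb₁F hf₁0, fun v => ?_, ?_⟩
  · rw [v.ord_mul hb₁F hf₁0, ord_const, zero_add, hdiv₁ v]
  · rw [D.redF_smul b₁ hf₁O, Algebra.smul_def]
    have h1 : φ = algebraMap k Fk κ₀ * gb ^ s := by
      rw [hκ₀, mul_assoc, inv_mul_cancel₀ (pow_ne_zero s hgb), mul_one]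
    rw [← hφ, h1, ← mul_assoc, ← map_mul, hb₁res, map_one, one_mul]

/-- **Čech doubling theorem** in the working context. -/
theorem main
    (hA1 : ∀ c : A, c ∈ IsLocalRing.maximalIdeal A → ∀ d : A, d ≠ 0 → ∃ n : ℕ, ¬ c ^ n ∣ d)
    (s : ℕ) (hs : (s : k) ≠ 0) (E : Divisor L F) (hdeg : Divisor.degree E = 0)
    (hsE : s • E ∈ Divisor.principal (K := L) (F := F))
    (hrE : Finsupp.mapDomain D.r E ∈ Divisor.principal (K := k) (F := Fk)) :
    E ∈ Divisor.principal (K := L) (F := F) := by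
  classical
  obtain ⟨gb, hgb, hgbdiv⟩ := hrE
  obtain ⟨f, hfO, hf0, hfdiv, hfred⟩ := C.exists_normalized s hsE hgb hgbdiv
  obtain ⟨P₁, P₂, hr⟩ := C.exists_places
  have hP : P₁ ≠ P₂ := ne_of_r_ne hr
  set n : ℕ := 2 * g with hn
  have hndeg : 2 * (g : ℤ) - 2 < Divisor.degree E + n := by
    rw [hdeg, hn]; push_cast; omega
  set Eb := Finsupp.mapDomain D.r E with hEb
  -- the starting lifts
  have hginv : gb⁻¹ ∈ riemannRochSpace Eb := inv_mem_rr_of_div hgb hgbdiv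
  have hdeg₁ : 2 * (g : ℤ) - 2 < Divisor.degree (Dv E P₁ P₂ n 0) := by
    rw [degree_Dv _ _ _ _ _ (C.hF.deg_eq_one _) (C.hF.deg_eq_one _)]; omega
  have hdeg₂ : 2 * (g : ℤ) - 2 < Divisor.degree (Dv E P₁ P₂ 0 n) := by
    rw [degree_Dv _ _ _ _ _ (C.hF.deg_eq_one _) (C.hF.deg_eq_one _)]; omega
  have hEbDv : Eb = Dv Eb (D.r P₁) (D.r P₂) 0 0 := (Dv_zero_zero _ _ _).symm
  obtain ⟨t₁, ht₁, hr₁⟩ := C.lift (Dv E P₁ P₂ n 0) hdeg₁ gb⁻¹ (by
    rw [mapDomain_Dv]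
    rw [hEbDv] at hginv
    exact rr_mono (Dv_le_Dv Eb _ _ (Int.natCast_nonneg n) le_rfl) hginv)
  obtain ⟨t₂, ht₂, hr₂⟩ := C.lift (Dv E P₁ P₂ 0 n) hdeg₂ gb⁻¹ (by
    rw [mapDomain_Dv]
    rw [hEbDv] at hginv
    exact rr_mono (Dv_le_Dv Eb _ _ le_rfl (Int.natCast_nonneg n)) hginv)
  have hginv0 : gb⁻¹ ≠ 0 := inv_ne_zero hgb
  -- conclusion from a common element
  have hfinish : ∀ t : F, t ∈ riemannRochSpace (Dv E P₁ P₂ n 0) →
      t ∈ riemannRochSpace (Dv E P₁ P₂ 0 n) → D.redF t ≠ 0 →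
      E ∈ Divisor.principal (K := L) (F := F) := by
    intro t h1 h2 h3
    have ht0 : t ≠ 0 := by
      rintro rfl
      exact h3 D.redF_zero
    have := mem_rr_Dv_min E hP (a'' := 0) (b'' := 0) h1 h2 (Or.inr le_rfl) (Or.inl le_rfl)
    rw [Dv_zero_zero] at this
    exact mem_principal_of_mem_rr C.hF hdeg this ht0
  -- the starting `Good c`
  obtain ⟨c, hc, hG⟩ : ∃ c : A, c ∈ IsLocalRing.maximalIdeal A ∧ Good D E P₁ P₂ n gb c := by
    by_cases hd : t₁ - t₂ = 0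
    · exact ⟨0, Ideal.zero_mem _, t₁, ht₁, t₂, ht₂, hr₁, hr₂, 0, D.O.zero_mem, by simp [hd]⟩
    · have hdO : t₁ - t₂ ∈ D.O := D.O.sub_mem ht₁.2 ht₂.2
      have hdred : D.redF (t₁ - t₂) = 0 := by rw [D.redF_sub ht₁.2 ht₂.2, hr₁, hr₂, sub_self]
      obtain ⟨a, y, ha, hy, hay⟩ := D.exists_eq_mul_of_redF_eq_zero hdO hd hdred
      exact ⟨a, ha, t₁, ht₁, t₂, ht₂, hr₁, hr₂, y, D.mem_of_redF_ne_zero hy, hay⟩
  -- iterate the doubling
  have hiter : ∀ K : ℕ, Good D E P₁ P₂ n gb (c ^ (2 ^ K)) := by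
    intro K
    induction K with
    | zero => simpa using hG
    | succ K ih =>
      have hmem : c ^ (2 ^ K) ∈ IsLocalRing.maximalIdeal A :=
        Ideal.pow_mem_of_mem _ hc _ (Nat.pos_of_ne_zero (by positivity))
      have := C.doubling hr n hndeg s hs hfO hf0 hfdiv hgb hfred hmem ih
      rwa [← pow_mul, ← pow_succ] at this
  -- the torsion bound
  obtain ⟨c₀, hc₀, hbound⟩ := C.exists_torsion_bound E P₁ P₂ n n
  obtain ⟨N, hN⟩ := hA1 c hc c₀ hc₀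
  set cK := c ^ (2 ^ N) with hcK
  have hnd : ¬ cK ∣ c₀ := fun h =>
    hN (dvd_trans (pow_dvd_pow c (Nat.lt_two_pow_self (n := N)).le) h)
  obtain ⟨c', hc'⟩ : c₀ ∣ cK := (ValuationRing.dvd_total cK c₀).resolve_left hnd
  have hc'max : c' ∈ IsLocalRing.maximalIdeal A := by
    rw [IsLocalRing.mem_maximalIdeal, mem_nonunits_iff]
    rintro ⟨u, hu⟩
    apply hnd
    refine ⟨((u⁻¹ : Aˣ) : A), ?_⟩
    rw [hc', ← hu, mul_assoc]
    simp
  obtain ⟨τ₁, hτ₁, τ₂, hτ₂, hρ₁, hρ₂, x, hxO, hx⟩ := hiter N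
  by_cases hcK0 : cK = 0
  · -- `τ₁ = τ₂`
    have heq : τ₁ = τ₂ := by
      rw [← hcK, hcK0] at hx
      simpa [sub_eq_zero] using hx
    exact hfinish τ₁ hτ₁.1 (heq ▸ hτ₂.1) (by rw [hρ₁]; exact hginv0)
  · have hcKL : (cK : L) ≠ 0 := fun h => hcK0 (Subtype.ext h)
    have hcKF : algebraMap L F (cK : L) ≠ 0 := (map_ne_zero _).2 hcKL
    have hxu : x = (algebraMap L F (cK : L))⁻¹ * τ₁ - (algebraMap L F (cK : L))⁻¹ * τ₂ := by
      rw [← mul_sub, hx, ← hcK, ← mul_assoc, inv_mul_cancel₀ hcKF, one_mul]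
    have hu₁ : (algebraMap L F (cK : L))⁻¹ * τ₁ ∈ riemannRochSpace (Dv E P₁ P₂ n 0) := by
      have := Submodule.smul_mem _ ((cK : L)⁻¹) hτ₁.1
      rwa [Algebra.smul_def, map_inv₀] at this
    have hu₂ : (algebraMap L F (cK : L))⁻¹ * τ₂ ∈ riemannRochSpace (Dv E P₁ P₂ 0 n) := by
      have := Submodule.smul_mem _ ((cK : L)⁻¹) hτ₂.1
      rwa [Algebra.smul_def, map_inv₀] at this
    obtain ⟨m₁, hm₁, m₂, hm₂, hm⟩ := hbound x hxO _ hu₁ _ hu₂ hxu
    -- `τ₁ - c' m₁ = τ₂ - c' m₂`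
    have hkey : τ₁ - algebraMap L F (c' : L) * m₁ = τ₂ - algebraMap L F (c' : L) * m₂ := by
      have h1 : τ₁ - τ₂ = algebraMap L F (c' : L) * (m₁ - m₂) := by
        rw [hx, ← hcK, hc', ← hm, MulMemClass.coe_mul, map_mul]
        ring
      linear_combination h1
    have hmem₁ : τ₁ - algebraMap L F (c' : L) * m₁ ∈ Lat D (Dv E P₁ P₂ n 0) :=
      Lat.sub hτ₁ (Lat.smul c' hm₁)
    have hmem₂ : τ₂ - algebraMap L F (c' : L) * m₂ ∈ Lat D (Dv E P₁ P₂ 0 n) :=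
      Lat.sub hτ₂ (Lat.smul c' hm₂)
    refine hfinish _ hmem₁.1 (hkey ▸ hmem₂.1) ?_
    rw [D.redF_sub hτ₁.2 (D.smul_mem c' hm₁.2), hρ₁,
      redF_smul_of_mem_maximalIdeal D hc'max hm₁.2, sub_zero]
    exact hginv0

end Ctx

end Fermat.Agent.S18lib.Cech
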