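/-
S18lib / Cech / Core (helper6).
**The Čech doubling core of S18** (statement = `Stub_Core` v2, verbatim):
for a reduction datum with orthonormal bases over a rank-one valuation ring, with Riemann's theorem
on both sides for the same genus: a degree zero divisor `E` with `s E` principal, `s` invertible in
the residue field, and `r_* E` principal, is principal.
-/
import Fermat.Agent.S18lib.Cech.Main
import Fermat.Agent.S18lib.RRlat.Lattice

set_option autoImplicit false

noncomputable section

namespace Fermat.Agent.S18lib.Cech

open AlgebraicCurve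

variable {L : Type*} [Field L] {A : ValuationSubring L}
variable {F : Type*} [Field F] [Algebra L F]
variable {Fk : Type*} [Field Fk] [Algebra (IsLocalRing.ResidueField A) Fk]

/-- the working context from the lattice Riemann–Roch package (RRlat) -/
theorem ctx_of_rrlat (D : RedDatum A F Fk) (hD : D.HasOrthonormalBases) {g : ℕ}
    (hF : IsCurveOfGenus L F g) (hFk : IsCurveOfGenus (IsLocalRing.ResidueField A) Fk g) :
    Ctx D g where
  hF := hF
  hFk := hFk
  hD := hD
  basis := fun E => by
    have := hF.finiteDimensional E
    obtain ⟨b, hb, hbo, hbs⟩ := RRlat.exists_orthonormal_basis_latticeOf D hD E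
    exact ⟨_, b, hb, hbo, hbs⟩
  lift := fun E hE η hη => RRlat.exists_lift D hD hF hFk E hE η hη

/-- **Core theorem** (consumed verbatim by (Asm)). -/
theorem mem_principal_of_smul_mem_principal (D : RedDatum A F Fk) (hD : D.HasOrthonormalBases)
    (hA1 : ∀ c : A, c ∈ IsLocalRing.maximalIdeal A → ∀ d : A, d ≠ 0 → ∃ n : ℕ, ¬ c ^ n ∣ d)
    {g : ℕ} (hF : IsCurveOfGenus L F g) (hFk : IsCurveOfGenus (IsLocalRing.ResidueField A) Fk g)
    (s : ℕ) (hs : (s : IsLocalRing.ResidueField A) ≠ 0)
    (E : Divisor L F) (hdeg : Divisor.degree E = 0)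
    (hsE : s • E ∈ Divisor.principal (K := L) (F := F))
    (hrE : Finsupp.mapDomain D.r E ∈
      Divisor.principal (K := IsLocalRing.ResidueField A) (F := Fk)) :
    E ∈ Divisor.principal (K := L) (F := F) :=
  (ctx_of_rrlat D hD hF hFk).main hA1 s hs E hdeg hsE hrE

end Fermat.Agent.S18lib.Cech
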